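/-
Programme MAZ (S15), brick K3-LEVELS (helper26): **(EXT-INJ) at every normal level, up to `ℚ̄_p`**.

The hypothesis `hext : ∀ E, ∀ x ∈ P00 E, bcO c0 E x = 1 → x = 1` of `MAZ/K3Asm7/Local.k3_local`
(`Pic X_{O_E} ⊇ P00 E → Pic X_{ℚ̄_p}` injective) factors as
  `P00 E → Pic X_E`            (`RedN3.ExtInjective00` at the fraction field `E` of `O_E`: F4 RED-N), then
  `Pic X_E → Pic X_{ℚ̄_p}`     (`Bridge43.picMap_injective_of_field`: EXT-INJ-FIELD, needs only
                                 `H⁰(O_{X_{ℚ̄_p}}) = ℚ̄_p`).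
Both `H⁰` statements come from a `W`-level Čech datum `D` (`Red68.h0Const_of_cechData`).

* `injective_bcE_of_cechData` : `Pic X_E → Pic X_{ℚ̄_p}` is injective;
* `hext_of_extInjective00`    : `hext` at `E` from `ExtInjective00 c0 O_E E P`;
* `hext_of_balanced`          : `hext` at `E` for a BALANCED subgroup `P` (`RedN3.extInjective00`);
* `hext_of_P00`               : `hext` at `E` for `P = Bal60.P00 hg X` (multidegree zero), `hg` connected.
-/
import Mathlib
import Fermat.Agent.T1B.Bridge43.ExtInjField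
import Fermat.Agent.T1B.RedN3.ExtInj00
import Fermat.Agent.T1B.Bal60.Main
import Fermat.Agent.T1.Red68.ExtInjModel
import Fermat.Agent.T1B.Local66.Union

set_option autoImplicit false
set_option linter.unusedSectionVars false
set_option linter.unusedVariables false
set_option linter.style.haveILetI false
set_option synthInstance.maxHeartbeats 400000
set_option maxHeartbeats 1000000

open TensorProduct

open Fermat.Agent.TW.B5.Iface Fermat.Agent.RED.Interface4 Fermat.Agent.T1.HubInst98
open Fermat.Agent.T1.IntSub47 Fermat.Agent.Jac Fermat.Agent.T1.RedIface75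
open Fermat.Agent.Jac.BaseChange75 Fermat.Agent.T1.CechFormal70
open Fermat.Agent.T1B.RedN3 Fermat.Agent.T1.Red68
open Fermat.Agent.T1B.Local66.LocalBase Fermat.Agent.T1B.Local66.Union
open scoped Fermat.Agent.Jac.BaseChange75

noncomputable section

namespace Fermat.Agent.MAZ.K3Levels26

/-- `Ω ⊗[W] B` is nontrivial for a nontrivial flat `W`-algebra `B` and `W → Ω` injective. -/
theorem nontrivial_tensor_of_flat {W Ω B : Type*} [CommRing W] [CommRing Ω] [CommRing B]
    [Algebra W Ω] [Algebra W B] [Module.Flat W B] [Nontrivial B]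
    (hinj : Function.Injective (algebraMap W Ω)) : Nontrivial (Ω ⊗[W] B) := by
  have h := Algebra.TensorProduct.includeRight_injective (R := W) (A := Ω) (B := B) hinj
  refine ⟨⟨(1 : Ω) ⊗ₜ[W] (1 : B), (1 : Ω) ⊗ₜ[W] (0 : B), fun h' => ?_⟩⟩
  exact one_ne_zero (h h')

variable {p : ℕ} [Fact p.Prime] {K : IntermediateField ℚ Qbar}
  {B0 B1 B01 : Type} [CommRing B0] [CommRing B1] [CommRing B01]
  [Algebra (Wb p K) B0] [Algebra (Wb p K) B1] [Algebra (Wb p K) B01] [Algebra B0 B01]
  [Algebra B1 B01] [IsScalarTower (Wb p K) B0 B01] [IsScalarTower (Wb p K) B1 B01]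
  (c0 : TwoChart (Wb p K) B0 B1 B01)

/-- **EXT-INJ-FIELD on the levels**: `Pic X_E → Pic X_{ℚ̄_p}` is injective, from a `W`-level Čech
datum. -/
theorem injective_bcE_of_cechData [Module.Flat (Wb p K) B0] [Nontrivial B0] {g : ℕ}
    (D : CechData (Wb p K) B0 B1 B01 g)
    (hρ0 : ∀ x, D.ρ0 x = algebraMap B0 B01 x) (hρ1 : ∀ x, D.ρ1 x = algebraMap B1 B01 x)
    (E : NLevel p K) : Function.Injective (bcE c0 E) := by
  letI := algWE E.lev
  letI := algWKbar p K
  letI := algEKbar E.E
  haveI := tower_W_E_Kbar E.lev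
  haveI : Nontrivial (Kbar p ⊗[Wb p K] B0) := nontrivial_tensor_of_flat (iotaW_injective p K)
  exact Fermat.Agent.T1B.Bridge43.picMap_injective_of_field c0 ↥E.E (Kbar p)
    (h0Const_of_cechData c0 D hρ0 hρ1 (Kbar p))

/-- **`hext` at `E`** from `ExtInjective00` at the fraction field `E` of `O_E` and the injectivity of
`Pic X_E → Pic X_{ℚ̄_p}`. -/
theorem hext_of_extInjective00 (E : NLevel p K) (hinjE : Function.Injective (bcE c0 E))
    (P : Subgroup (PicO c0 E))
    (h : letI := algWO E.lev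
      letI := algWE E.lev
      letI := algOE E.E
      haveI := tower_W_O_E E.lev
      ExtInjective00 c0 ↥(intSubring p E.E) ↥E.E P) :
    ∀ x ∈ P, bcO c0 E x = 1 → x = 1 := by
  intro x hx h1
  rw [← bcE_bcOE] at h1
  have h2 : bcOE c0 E x = 1 := hinjE (h1.trans (map_one _).symm)
  exact h x hx h2

/-- **`hext` at `E`** for a balanced subgroup of `Pic X_{O_E}`. -/
theorem hext_of_balanced [Module.Flat (Wb p K) B0] [Nontrivial B0] {g : ℕ}
    (D : CechData (Wb p K) B0 B1 B01 g)
    (hρ0 : ∀ x, D.ρ0 x = algebraMap B0 B01 x) (hρ1 : ∀ x, D.ρ1 x = algebraMap B1 B01 x)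
    (E : NLevel p K) {π : ↥(intSubring p E.E)} (hπ : Irreducible π) {ι : Type} [Nonempty ι]
    (hg : letI := algWO E.lev
      NodalGood (c0.baseChange ↥(intSubring p E.E)) π ι)
    (P : Subgroup (PicO c0 E))
    (hbal : letI := algWO E.lev
      Balanced c0 ↥(intSubring p E.E) hg P) :
    ∀ x ∈ P, bcO c0 E x = 1 → x = 1 := by
  refine hext_of_extInjective00 c0 E (injective_bcE_of_cechData c0 D hρ0 hρ1 E) P ?_
  letI := algWO E.lev
  letI := algWE E.lev
  letI := algOE E.E
  haveI := tower_W_O_E E.lev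
  haveI := isDVR_O E.E
  haveI := isFractionRing_O_E E.E
  exact extInjective00 c0 ↥(intSubring p E.E) ↥E.E hπ hg
    (h0Const_of_cechData c0 D hρ0 hρ1 ↥(intSubring p E.E)) P hbal

/-- **`hext` at `E`** for the multidegree-zero subgroup `P00 hg X` of a connected nodal fibre. -/
theorem hext_of_P00 [Module.Flat (Wb p K) B0] [Nontrivial B0] {g : ℕ}
    (D : CechData (Wb p K) B0 B1 B01 g)
    (hρ0 : ∀ x, D.ρ0 x = algebraMap B0 B01 x) (hρ1 : ∀ x, D.ρ1 x = algebraMap B1 B01 x)
    (E : NLevel p K) {π : ↥(intSubring p E.E)} (hπ : Irreducible π) {ι : Type} [Nonempty ι]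
    (hg : letI := algWO E.lev
      NodalGood (c0.baseChange ↥(intSubring p E.E)) π ι)
    (hconn : letI := algWO E.lev
      Fermat.Agent.T1B.Bal60.Connected hg)
    {κ : Type} [Field κ]
    (X : letI := algWO E.lev
      ∀ i, Fermat.Agent.T1B.Bal60.Comp (c0.baseChange ↥(intSubring p E.E)) (hg.P0 i) (hg.P1 i) κ) :
    ∀ x ∈ (letI := algWO E.lev
      Fermat.Agent.T1B.Bal60.P00 hg X : Subgroup (PicO c0 E)), bcO c0 E x = 1 → x = 1 :=
  hext_of_balanced c0 D hρ0 hρ1 E hπ hg _
    (letI := algWO E.lev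
     Fermat.Agent.T1B.Bal60.balanced c0 ↥(intSubring p E.E) hg hconn X)

end Fermat.Agent.MAZ.K3Levels26
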