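/-
Programme MAZ (S15), brick K3-LEVELS (helper26), the U2 half: **(FORMAL') at every normal level**.

`c0 : TwoChart W B0 B1 B01` ANY two-chart datum over `W = Wb p K` which is finite projective over the
line (`hfp`), with a `W`-level Čech datum `D` whose restriction maps are the algebra maps (`hρ0`, `hρ1`)
— exactly the outputs of G1 MODEL-COH of the hub (`Hub9.DS H`, `DS_ρ0`, `DS_ρ1`).  Then for EVERY normal
level `E : NLevel p K` (`O_E` a complete DVR of residue characteristic `p`) and `r` coprime to `p`: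

* `pow_bijective_J1Fam` : `z ↦ z ^ r` is bijective on `J̃¹(O_E) = J1Fam c0 E`;
* `hdiv_levels`, `hinj_levels` : the hypotheses `hdiv`, `hinj` of `MAZ/K3Asm7/Local.k3_local`
  (equivalently of `MAZ/K3Abs43/Levels.{hdiv,hinj}_of_levels`).

All level-wise inputs of helper47's `FormalDiv47.pow_bijective_J1` are supplied here:
`CoordInjective` (`CoordInj23.coordInjective_of_cechData`), `AlgCoord` (`Alg81.algUnits` with
`Toric87.hnzd_of_finiteProjOverLine` and `FiniteProjOverLine.baseChange`), completeness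
(`Union81.isAdicComplete_intSubring`), `p ∈ 𝔪_E`.
-/
import Mathlib
import Fermat.Agent.MAZ.FormalDiv47.Inst
import Fermat.Agent.T1.CoordInj23.OfCechData
import Fermat.Agent.T1B.Alg81.AlgUnits
import Fermat.Agent.T1B.Toric87.Nzd
import Fermat.Agent.T1B.Union81.IntSubDVR
import Fermat.Agent.T1B.Bridge54.IpUnion

set_option autoImplicit false
set_option linter.unusedSectionVars false
set_option linter.unusedVariables false
set_option linter.style.haveILetI false
set_option synthInstance.maxHeartbeats 400000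
set_option maxHeartbeats 1000000

open TensorProduct Polynomial

open Fermat.Agent.TW.B5.Iface Fermat.Agent.RED.Interface4 Fermat.Agent.T1.HubInst98
open Fermat.Agent.T1.IntSub47 Fermat.Agent.Jac Fermat.Agent.T1.RedIface75
open Fermat.Agent.Jac.BaseChange75 Fermat.Agent.T1.CechFormal70
open Fermat.Agent.T1B.Toric11 Fermat.Agent.T1B.RedN3
open Fermat.Agent.T1B.Local66.LocalBase Fermat.Agent.T1B.Local66.Union
open Fermat.Agent.T1B.Bridge54.IpUnion
open scoped Fermat.Agent.Jac.BaseChange75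

noncomputable section

namespace Fermat.Agent.MAZ.K3Levels26

variable {p : ℕ} [Fact p.Prime] {K : IntermediateField ℚ Qbar}
  {B0 B1 B01 : Type} [CommRing B0] [CommRing B1] [CommRing B01]
  [Algebra (Wb p K) B0] [Algebra (Wb p K) B1] [Algebra (Wb p K) B01] [Algebra B0 B01]
  [Algebra B1 B01] [IsScalarTower (Wb p K) B0 B01] [IsScalarTower (Wb p K) B1 B01]
  (c0 : TwoChart (Wb p K) B0 B1 B01)

/-- `p` lies in the maximal ideal of `O_E`. -/
theorem natCast_p_mem_maximalIdeal (E : IntermediateField ℚ_[p] (Kbar p))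
    [FiniteDimensional ℚ_[p] E] :
    haveI := isDVR_O E
    ((p : ℕ) : ↥(intSubring p E)) ∈ IsLocalRing.maximalIdeal ↥(intSubring p E) := by
  haveI := isDVR_O E
  refine (@Fermat.Agent.T1B.Union81.mem_maximalIdeal_iff p _ E _ _).2 ?_
  have h : (((p : ℕ) : ↥(intSubring p E)) : Kbar p) = (p : Kbar p) := by
    simp
  rw [h]
  exact norm_p_lt_one p

variable {g : ℕ} (D : CechData (Wb p K) B0 B1 B01 g)
  (hρ0 : ∀ x, D.ρ0 x = algebraMap B0 B01 x) (hρ1 : ∀ x, D.ρ1 x = algebraMap B1 B01 x)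
  (hfp : c0.FiniteProjOverLine)

include D hρ0 hρ1 hfp in
/-- **(FORMAL') at the level `E`**: the `r`-th power map is bijective on `J̃¹(O_E)`, `r` coprime to
`p`. -/
theorem pow_bijective_J1Fam {r : ℕ} (hr : Nat.Coprime r p) (E : NLevel p K) :
    Function.Bijective (fun z : J1Fam c0 E => z ^ r) := by
  letI := algWO E.lev
  haveI := isDVR_O E.E
  haveI : IsAdicComplete (IsLocalRing.maximalIdeal ↥(intSubring p E.E)) ↥(intSubring p E.E) :=
    @Fermat.Agent.T1B.Union81.isAdicComplete_intSubring p _ E.E E.fin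
  have hInj : CoordInjective c0 ↥(intSubring p E.E) :=
    Fermat.Agent.T1.CoordInj23.coordInjective_of_cechData c0 hfp D hρ0 hρ1 ↥(intSubring p E.E)
  have hfin0 := (hfp.baseChange ↥(intSubring p E.E)).fin0
  have hnzd := Fermat.Agent.T1B.Toric87.hnzd_of_finiteProjOverLine c0 hfp ↥(intSubring p E.E)
  have hA : AlgCoord c0 ↥(intSubring p E.E) D.b :=
    (Fermat.Agent.T1B.Alg81.algUnits c0 ↥(intSubring p E.E) hfin0 hnzd).algCoord D.b
  exact Fermat.Agent.MAZ.FormalDiv47.pow_bijective_J1 c0 D hρ0 hρ1 ↥(intSubring p E.E) hInj hA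
    (natCast_p_mem_maximalIdeal E.E) hr

include D hρ0 hρ1 hfp in
/-- **`hdiv` of `K3Asm7.k3_local`**: `J̃¹(O_E)` is `r`-divisible at every level. -/
theorem hdiv_levels {r : ℕ} (hr : Nat.Coprime r p) :
    ∀ (E : NLevel p K), ∀ x ∈ J1Fam c0 E, ∃ x' ∈ J1Fam c0 E, x' ^ r = x := by
  intro E x hx
  obtain ⟨z, hz⟩ := (pow_bijective_J1Fam c0 D hρ0 hρ1 hfp hr E).2 ⟨x, hx⟩
  exact ⟨z.1, z.2, congrArg Subtype.val hz⟩

include D hρ0 hρ1 hfp in
/-- **`hinj` of `K3Asm7.k3_local`**: `J̃¹(O_E)` has no `r`-torsion at every level. -/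
theorem hinj_levels {r : ℕ} (hr : Nat.Coprime r p) :
    ∀ (E : NLevel p K), ∀ x ∈ J1Fam c0 E, x ^ r = 1 → x = 1 := by
  intro E x hx hxr
  have h2 : (⟨x, hx⟩ : J1Fam c0 E) ^ r = (1 : J1Fam c0 E) ^ r := by
    rw [one_pow]
    exact Subtype.ext hxr
  exact congrArg Subtype.val ((pow_bijective_J1Fam c0 D hρ0 hρ1 hfp hr E).1 h2)

end Fermat.Agent.MAZ.K3Levels26
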