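/-
Programme MAZ (S15), brick K3-LEVELS (helper26): **THE BUNDLE AT THE CONCRETE HUB**.

`H : Hub9.HubParams p M' K`, `c0 := c0S H` (the nodal source chart system of level `M' * p` over
`W = Wb p K`), Čech datum `DS H`.  From helper37's model hypothesis
`HyS : NodeNF37.ToricBaseInst.Hyp (piW p K) (tS H) (B0S H) (B1S H) (O1S p M' K) (O2S p M' K)` (the nodal
hub facts: `NodeNF37/HubHyp.lean`) and the per-level nodal packages
`D : ∀ E, K3Levels77.LevelData (c0S H) E` (helper79's `K3Levels79/HubLevel.levelDataS`):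

* `finiteProjOverLine_c0S` : `(c0S H).FiniteProjOverLine` (`Toric11.numData_finiteProjOverLine`);
* `flat_B0S`, `flat_B1S`, `flat_B01S` : the chart rings are flat over `W`;
* `levelHyps_hub` : the five level-wise hypotheses `hJP`, `htors`, `hdiv`, `hinj`, `hext` of
  `K3Asm7.k3_local` / `leafK3_of_local_pt` / `leafK3_of_local_tw` for `c0 := c0S H`,
  `P00 := fun E => (D E).P00`;
* `hdiv_hub`, `hinj_hub` : (FORMAL') alone (no `D` needed).
-/
import Mathlib
import Fermat.Agent.MAZ.K3Levels26.Main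
import Fermat.Agent.T1B.Hub9.Data
import Fermat.Agent.T1B.Toric11.NodalFin1
import Fermat.Agent.T1B.NodalHub49.Facts

set_option autoImplicit false
set_option linter.unusedSectionVars false
set_option linter.unusedVariables false
set_option linter.style.haveILetI false
set_option synthInstance.maxHeartbeats 400000
set_option maxHeartbeats 1000000

open TensorProduct
open Fermat.Agent.TW.B5.Iface Fermat.Agent.RED.Interface4 Fermat.Agent.T1.HubInst98
open Fermat.Agent.T1.IntSub47 Fermat.Agent.Jac Fermat.Agent.T1.RedIface75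
open Fermat.Agent.T1.CechFormal70 Fermat.Agent.T1.Coh60
open Fermat.Agent.T1B.Local66.LocalBase Fermat.Agent.T1B.Local66.Union
open Fermat.Agent.T1B.Bridge54.IpUnion
open Fermat.Agent.T1B.Hub9
open Fermat.Agent.T1B.NodeNF37.ToricBaseInst (Hyp)
open Fermat.Agent.MAZ.K3Levels77 (LevelData)
open Fermat.Agent.T1.Assembly41.Concrete (hA)
open scoped Fermat.Agent.T1.Assembly41.FastInst

attribute [local instance] algebra0 algebra1 isScalarTower0 isScalarTower1

noncomputable section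

namespace Fermat.Agent.MAZ.K3Levels26

variable {p M' : ℕ} [Fact p.Prime] [NeZero p] [NeZero M'] {K : IntermediateField ℚ Qbar}
  [FiniteDimensional ℚ K] (H : HubParams p M' K)

/-- `W = Wb p K` is a discrete valuation ring. -/
theorem isDVR_Wb : IsDiscreteValuationRing (Wb p K) :=
  Fermat.Agent.RED.DESC.NumberFieldDVR27.isDiscreteValuationRing_AK (padicPlace p) K
    (NeZero.ne p) (hA p)

/-- **The source chart system of the hub is finite projective over the line.** -/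
theorem finiteProjOverLine_c0S
    (HyS : Hyp (piW p K) (tS H) (B0S H) (B1S H) (O1S p M' K) (O2S p M' K)) :
    (c0S H).FiniteProjOverLine := by
  haveI := isDVR_Wb (p := p) (K := K)
  exact Fermat.Agent.T1B.Toric11.numData_finiteProjOverLine (piW_irreducible p K) (numDataS H) HyS

theorem flat_B0S : Module.Flat (Wb p K) ↥(B0S H) :=
  Fermat.Agent.T1B.NodalHub49.flat_subalgebra (numDataS H) (B0S H)

theorem flat_B1S : Module.Flat (Wb p K) ↥(B1S H) :=
  Fermat.Agent.T1B.NodalHub49.flat_subalgebra (numDataS H) (B1S H)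

theorem flat_B01S : Module.Flat (Wb p K) ↥(B0S H ⊔ B1S H) :=
  Fermat.Agent.T1B.NodalHub49.flat_subalgebra (numDataS H) (B0S H ⊔ B1S H)

/-- **(FORMAL'), existence, at the hub**: `hdiv` of `K3Asm7.k3_local` for `c0 := c0S H`. -/
theorem hdiv_hub (HyS : Hyp (piW p K) (tS H) (B0S H) (B1S H) (O1S p M' K) (O2S p M' K))
    {r : ℕ} (hrp : Nat.Coprime r p) :
    ∀ (E : NLevel p K), ∀ x ∈ J1Fam (c0S H) E, ∃ x' ∈ J1Fam (c0S H) E, x' ^ r = x :=
  hdiv_levels (c0S H) (DS H) (DS_ρ0 H) (DS_ρ1 H) (finiteProjOverLine_c0S H HyS) hrp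

/-- **(FORMAL'), uniqueness, at the hub**: `hinj` of `K3Asm7.k3_local` for `c0 := c0S H`. -/
theorem hinj_hub (HyS : Hyp (piW p K) (tS H) (B0S H) (B1S H) (O1S p M' K) (O2S p M' K))
    {r : ℕ} (hrp : Nat.Coprime r p) :
    ∀ (E : NLevel p K), ∀ x ∈ J1Fam (c0S H) E, x ^ r = 1 → x = 1 :=
  hinj_levels (c0S H) (DS H) (DS_ρ0 H) (DS_ρ1 H) (finiteProjOverLine_c0S H HyS) hrp

/-- **All level-wise hypotheses of `K3Asm7.k3_local` at the hub**, for `P00 E := (D E).P00`:
`hJP`, `htors`, `hdiv`, `hinj`, `hext`. -/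
theorem levelHyps_hub (HyS : Hyp (piW p K) (tS H) (B0S H) (B1S H) (O1S p M' K) (O2S p M' K))
    (D : ∀ E : NLevel p K, LevelData (c0S H) E) {r : ℕ} (hrp : Nat.Coprime r p) :
    (∀ E, J1Fam (c0S H) E ≤ (D E).P00) ∧
    (∀ (E : NLevel p K), ∀ x ∈ (D E).P00, ∃ h : ℕ, 0 < h ∧ x ^ h ∈ J1Fam (c0S H) E) ∧
    (∀ (E : NLevel p K), ∀ x ∈ J1Fam (c0S H) E, ∃ x' ∈ J1Fam (c0S H) E, x' ^ r = x) ∧
    (∀ (E : NLevel p K), ∀ x ∈ J1Fam (c0S H) E, x ^ r = 1 → x = 1) ∧
    (∀ (E : NLevel p K), ∀ x ∈ (D E).P00, bcO (c0S H) E x = 1 → x = 1) := by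
  haveI := flat_B0S H
  exact levelHyps (c0S H) (DS H) (DS_ρ0 H) (DS_ρ1 H) (finiteProjOverLine_c0S H HyS) D hrp

end Fermat.Agent.MAZ.K3Levels26
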