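/-
Programme MAZ (S15), brick K3-LEVELS (helper26): **(EXT-INJ) for the family of helper53's
NODALGOOD-COMPLETION** (`NodalBC53/{Level,Bal}.lean`).

For a normal level `E : NLevel p K` (`L = E.L` the number field, `O_L = Wb p L`, `O_E` the complete
level), `π : O_L` a uniformiser, `hg : NodalGood (c0.baseChange O_L) π ι` connected with components
`X i` over a field `κ`, the multidegree-zero subgroup over `O_E` is

  `P00 (nodalGood_level c0 E.leL E.levL hd hπ hg) (compHub c0 … hg X)`,

and `Pic X_{O_E} ⊇ P00 → Pic X_{ℚ̄_p}` is injective (`hext_nodalGood_level`): the hypothesis `hext` of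
`MAZ/K3Asm7/Local.k3_local` for this family.

* `maximalIdeal_eq_span_of_sameFibre` : (abstract) a uniformiser stays a uniformiser along a
  `SameFibre` map of local rings;
* `maximalIdeal_eq_span_toO`, `irreducible_toO` : `toO hL π` is a uniformiser of `O_E`;
* `hext_nodalGood_level` : the statement above.
-/
import Mathlib
import Fermat.Agent.MAZ.K3Levels26.ExtInj
import Fermat.Agent.T1B.NodalBC53.Level
import Fermat.Agent.T1B.NodalBC53.Bal

set_option autoImplicit false
set_option linter.unusedSectionVars false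
set_option linter.unusedVariables false
set_option linter.style.haveILetI false
set_option synthInstance.maxHeartbeats 400000
set_option maxHeartbeats 1000000

open TensorProduct

open Fermat.Agent.TW.B5.Iface Fermat.Agent.RED.Interface4 Fermat.Agent.T1.HubInst98
open Fermat.Agent.T1.IntSub47 Fermat.Agent.Jac Fermat.Agent.T1.RedIface75
open Fermat.Agent.Jac.BaseChange75 Fermat.Agent.T1.CechFormal70
open Fermat.Agent.T1B.RedN3 Fermat.Agent.T1.Red68
open Fermat.Agent.T1B.Local66.LocalBase Fermat.Agent.T1B.Local66.Union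
open Fermat.Agent.T1B.NodalBC53.Fibre Fermat.Agent.T1B.NodalBC53.Transfer
open Fermat.Agent.T1B.NodalBC53.Level Fermat.Agent.T1B.NodalBC53.Bal
open Fermat.Agent.PT.BR.LocInj13
open scoped Fermat.Agent.Jac.BaseChange75

noncomputable section

namespace Fermat.Agent.MAZ.K3Levels26

/-- A uniformiser stays a uniformiser along a map of local rings inducing an isomorphism modulo
it. -/
theorem maximalIdeal_eq_span_of_sameFibre {R R' : Type*} [CommRing R] [CommRing R']
    [IsLocalRing R] [IsLocalRing R'] (φ : R →+* R') {π : R} (hs : SameFibre φ π)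
    (hmax : IsLocalRing.maximalIdeal R = Ideal.span {π}) :
    IsLocalRing.maximalIdeal R' = Ideal.span {φ π} := by
  have hπm : π ∈ IsLocalRing.maximalIdeal R := by
    rw [hmax]
    exact Ideal.mem_span_singleton_self π
  have hφπ : φ π ∈ IsLocalRing.maximalIdeal R' := by
    rw [IsLocalRing.mem_maximalIdeal, mem_nonunits_iff]
    intro hu
    obtain ⟨z, hz⟩ := hu.exists_right_inv
    obtain ⟨w, hw⟩ := hs.inj 1 ⟨z, by rw [map_one, hz]⟩
    have hπu : IsUnit π := IsUnit.of_mul_eq_one w hw.symm
    exact (IsLocalRing.mem_maximalIdeal _).1 hπm hπu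
  apply le_antisymm
  · intro y hy
    obtain ⟨x, z, hxz⟩ := hs.surj y
    by_cases hx : x ∈ IsLocalRing.maximalIdeal R
    · rw [hmax] at hx
      obtain ⟨w, hw⟩ := Ideal.mem_span_singleton'.1 hx
      rw [Ideal.mem_span_singleton']
      refine ⟨φ w + z, ?_⟩
      rw [hxz, ← hw, map_mul]
      ring
    · exfalso
      have hxu : IsUnit x := by
        by_contra hnu
        exact hx ((IsLocalRing.mem_maximalIdeal _).2 hnu)
      obtain ⟨a, ha⟩ := hxu.exists_left_inv
      have h1 : φ a * y = 1 + φ π * (φ a * z) := by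
        rw [hxz, mul_add, ← map_mul, ha, map_one]
        ring
      have h2 : IsUnit (1 + φ π * (φ a * z)) := by
        by_contra hnu
        have h3 : (1 + φ π * (φ a * z)) ∈ IsLocalRing.maximalIdeal R' :=
          (IsLocalRing.mem_maximalIdeal _).2 hnu
        have h4 : φ π * (φ a * z) ∈ IsLocalRing.maximalIdeal R' :=
          Ideal.mul_mem_right _ _ hφπ
        have h5 : (1 : R') ∈ IsLocalRing.maximalIdeal R' := by
          have := Ideal.sub_mem _ h3 h4
          rwa [add_sub_cancel_right] at this
        exact (IsLocalRing.mem_maximalIdeal _).1 h5 isUnit_one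
      rw [← h1] at h2
      exact (IsLocalRing.mem_maximalIdeal _).1 hy (isUnit_of_mul_isUnit_right h2)
  · rw [Ideal.span_singleton_le_iff_mem]
    exact hφπ

variable {p : ℕ} [Fact p.Prime]

/-- **`toO hL π` is a uniformiser of `O_E`** when `π` is a uniformiser of `O_L` and `ι L` is dense in
`E`. -/
theorem maximalIdeal_eq_span_toO {L : IntermediateField ℚ Qbar}
    {E : IntermediateField ℚ_[p] (Kbar p)} [FiniteDimensional ℚ_[p] E] (hL : IsLevel p L E)
    (hd : DenseIn p L E) {π : Wb p L} (hπ : π ≠ 0)
    (hmax : IsLocalRing.maximalIdeal (Wb p L) = Ideal.span {π}) :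
    haveI := isDVR_O E
    IsLocalRing.maximalIdeal ↥(intSubring p E) = Ideal.span {toO hL π} := by
  haveI := isDVR_O E
  exact maximalIdeal_eq_span_of_sameFibre (toO hL) (sameFibre_level hL hd hπ) hmax

/-- `toO hL π` is irreducible in `O_E`. -/
theorem irreducible_toO {L : IntermediateField ℚ Qbar}
    {E : IntermediateField ℚ_[p] (Kbar p)} [FiniteDimensional ℚ_[p] E] (hL : IsLevel p L E)
    (hd : DenseIn p L E) {π : Wb p L} (hπ : π ≠ 0)
    (hmax : IsLocalRing.maximalIdeal (Wb p L) = Ideal.span {π}) :
    Irreducible (toO hL π) := by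
  haveI := isDVR_O E
  exact (IsDiscreteValuationRing.irreducible_iff_uniformizer _).2
    (maximalIdeal_eq_span_toO hL hd hπ hmax)

variable {K : IntermediateField ℚ Qbar}
  {B0 B1 B01 : Type} [CommRing B0] [CommRing B1] [CommRing B01]
  [Algebra (Wb p K) B0] [Algebra (Wb p K) B1] [Algebra (Wb p K) B01] [Algebra B0 B01]
  [Algebra B1 B01] [IsScalarTower (Wb p K) B0 B01] [IsScalarTower (Wb p K) B1 B01]
  [Module.Flat (Wb p K) B0] [Module.Flat (Wb p K) B1] [Module.Flat (Wb p K) B01]
  (c0 : TwoChart (Wb p K) B0 B1 B01)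

/-- `ι L` is dense in `E_L` for a normal level. -/
theorem NLevel_denseIn (E : NLevel p K) : DenseIn p E.L E.E := by
  rw [E.hE]
  exact denseIn_localField p E.L

/-- **`hext` for the family of NODALGOOD-COMPLETION**: for the multidegree-zero subgroup of
`Pic X_{O_E}` obtained by transfer from the number field level `O_L`, `L = E.L`. -/
theorem hext_nodalGood_level [Nontrivial B0] {g : ℕ}
    (D : CechData (Wb p K) B0 B1 B01 g)
    (hρ0 : ∀ x, D.ρ0 x = algebraMap B0 B01 x) (hρ1 : ∀ x, D.ρ1 x = algebraMap B1 B01 x)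
    (E : NLevel p K) {π : Wb p E.L} (hπ : π ≠ 0)
    (hmax : IsLocalRing.maximalIdeal (Wb p E.L) = Ideal.span {π})
    {ι : Type} [Nonempty ι]
    (hg : letI := algAK (padicPlace p) E.leL
      NodalGood (c0.baseChange (Wb p E.L)) π ι)
    (hconn : letI := algAK (padicPlace p) E.leL
      Fermat.Agent.T1B.Bal60.Connected hg)
    {κ : Type} [Field κ]
    (X : letI := algAK (padicPlace p) E.leL
      ∀ i, Fermat.Agent.T1B.Bal60.Comp (c0.baseChange (Wb p E.L)) (hg.P0 i) (hg.P1 i) κ) :
    letI := algAK (padicPlace p) E.leL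
    letI := algWO E.levL
    letI := algWO E.lev
    haveI := tower_W_OL_OE E.leL E.levL
    ∀ x ∈ (Fermat.Agent.T1B.Bal60.P00
        (transfer c0 (sameFibre_level E.levL (NLevel_denseIn E) hπ) (regular_level E.levL hπ) hg)
        (compHub c0 (sameFibre_level E.levL (NLevel_denseIn E) hπ) (regular_level E.levL hπ) hg X) :
          Subgroup (PicO c0 E)),
      bcO c0 E x = 1 → x = 1 := by
  letI := algAK (padicPlace p) E.leL
  letI := algWO E.levL
  letI := algWO E.lev
  haveI := tower_W_OL_OE E.leL E.levL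
  exact hext_of_P00 c0 D hρ0 hρ1 E (irreducible_toO E.levL (NLevel_denseIn E) hπ hmax)
    (transfer c0 (sameFibre_level E.levL (NLevel_denseIn E) hπ) (regular_level E.levL hπ) hg)
    (connected_transfer c0 (sameFibre_level E.levL (NLevel_denseIn E) hπ)
      (regular_level E.levL hπ) hg hconn)
    (compHub c0 (sameFibre_level E.levL (NLevel_denseIn E) hπ) (regular_level E.levL hπ) hg X)

end Fermat.Agent.MAZ.K3Levels26
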