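/-
Programme MAZ (S15), brick K3-LEVELS (helper26): **THE BUNDLE**.

All LEVEL-WISE hypotheses of helper7's `MAZ/K3Asm7/FinalPt.leafK3_of_local_pt` (`hJP`, `htors`, `hdiv`,
`hinj`, `hext`, and the finite projectivity of the generic fibre `hfpl`) discharged at once, for the
family `P00 E := (D E).P00` of helper77's per-level nodal packages `D : ∀ E, K3Levels77.LevelData c0 E`:

* `hext_of_levelData`  : (EXT-INJ) `∀ E, ∀ x ∈ (D E).P00, bcO c0 E x = 1 → x = 1`;
* `levelHyps`          : the four level-wise statements `htors ∧ hdiv ∧ hinj ∧ hext` (+ `hJP`);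
* `leafK3_of_levelData`: `leafK3_of_local_pt` with these plugged in.  What is LEFT as hypotheses:
  the model-level facts (`hfp`, Čech datum `Dc`, flatness, `Compatible` of the family, integrality of
  the generic fibre charts), (J-ALL), (Φ''), (ADJ), (c), (DIV), (TORS-CMP), (MW at level `p`).
-/
import Mathlib
import Fermat.Agent.MAZ.K3Levels26.Formal
import Fermat.Agent.MAZ.K3Levels26.ExtInj
import Fermat.Agent.MAZ.K3Levels77.Level
import Fermat.Agent.MAZ.K3Asm7.FinalPt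

set_option autoImplicit false
set_option linter.unusedSectionVars false
set_option linter.unusedVariables false
set_option linter.style.haveILetI false
set_option synthInstance.maxHeartbeats 400000
set_option maxHeartbeats 1000000

open TensorProduct
open Fermat.Agent.TW.B5.Iface Fermat.Agent.RED.Interface4 Fermat.Agent.T1.HubInst98
open Fermat.Agent.T1.IntSub47 Fermat.Agent.Jac Fermat.Agent.T1.RedIface75
open Fermat.Agent.T1.PtLine75 Fermat.Agent.T1.CechFormal70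
open Fermat.Agent.T1B.Local66.LocalBase Fermat.Agent.T1B.Local66.Union
open Fermat.Agent.T1B.Local66.Objects
open Fermat.Agent.T1B.Plumb66.Inertia (Ip mem_Ip)
open Fermat.Agent.T1B.Bridge54.IpAction Fermat.Agent.T1B.Bridge54.IpInst
open Fermat.Agent.T1B.Bridge54.IpUnion
open Fermat.Agent.ES.P36.InertField27 (InertFixed)
open Fermat.Agent.MAZ.K3Levels77 (LevelData)
open ModularCurve
open Fermat.Agent.Jac.BaseChange75
open scoped Fermat.Agent.Jac.BaseChange75

noncomputable section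

namespace Fermat.Agent.MAZ.K3Levels26

local notation "Γℚ" => (AlgebraicClosure ℚ ≃ₐ[ℚ] AlgebraicClosure ℚ)

variable {p : ℕ} [Fact p.Prime] {K : IntermediateField ℚ Qbar}
  {B0 B1 B01 : Type} [CommRing B0] [CommRing B1] [CommRing B01]
  [Algebra (Wb p K) B0] [Algebra (Wb p K) B1] [Algebra (Wb p K) B01] [Algebra B0 B01]
  [Algebra B1 B01] [IsScalarTower (Wb p K) B0 B01] [IsScalarTower (Wb p K) B1 B01]
  (c0 : TwoChart (Wb p K) B0 B1 B01)

/-- **(EXT-INJ) for the family of per-level nodal packages.** -/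
theorem hext_of_levelData [Module.Flat (Wb p K) B0] [Nontrivial B0] {g : ℕ}
    (Dc : CechData (Wb p K) B0 B1 B01 g)
    (hρ0 : ∀ x, Dc.ρ0 x = algebraMap B0 B01 x) (hρ1 : ∀ x, Dc.ρ1 x = algebraMap B1 B01 x)
    (D : ∀ E : NLevel p K, LevelData c0 E) :
    ∀ (E : NLevel p K), ∀ x ∈ (D E).P00, bcO c0 E x = 1 → x = 1 :=
  fun E => hext_of_P00 c0 Dc hρ0 hρ1 E (D E).irr (D E).hg (D E).conn (D E).X

/-- **All level-wise hypotheses of `K3Asm7.k3_local` / `leafK3_of_local_pt`** for the family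
`P00 E := (D E).P00`: `hJP`, `htors`, `hdiv`, `hinj`, `hext`. -/
theorem levelHyps [Module.Flat (Wb p K) B0] [Nontrivial B0] {g : ℕ}
    (Dc : CechData (Wb p K) B0 B1 B01 g)
    (hρ0 : ∀ x, Dc.ρ0 x = algebraMap B0 B01 x) (hρ1 : ∀ x, Dc.ρ1 x = algebraMap B1 B01 x)
    (hfp : c0.FiniteProjOverLine) (D : ∀ E : NLevel p K, LevelData c0 E)
    {r : ℕ} (hrp : Nat.Coprime r p) :
    (∀ E, J1Fam c0 E ≤ (D E).P00) ∧
    (∀ (E : NLevel p K), ∀ x ∈ (D E).P00, ∃ h : ℕ, 0 < h ∧ x ^ h ∈ J1Fam c0 E) ∧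
    (∀ (E : NLevel p K), ∀ x ∈ J1Fam c0 E, ∃ x' ∈ J1Fam c0 E, x' ^ r = x) ∧
    (∀ (E : NLevel p K), ∀ x ∈ J1Fam c0 E, x ^ r = 1 → x = 1) ∧
    (∀ (E : NLevel p K), ∀ x ∈ (D E).P00, bcO c0 E x = 1 → x = 1) :=
  ⟨Fermat.Agent.MAZ.K3Levels77.hJP_of_levelData D,
    Fermat.Agent.MAZ.K3Levels77.htors_of_levelData D,
    hdiv_levels c0 Dc hρ0 hρ1 hfp hrp, hinj_levels c0 Dc hρ0 hρ1 hfp hrp,
    hext_of_levelData c0 Dc hρ0 hρ1 D⟩

variable [Nonempty (NLevel p K)]

/-- **LeafK3 at level `p` from the local bricks at level `M`, all level-wise hypotheses discharged**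
(`K3Asm7.leafK3_of_local_pt` for `P00 E := (D E).P00`). -/
theorem leafK3_of_levelData [NeZero p] [Module.Flat (Wb p K) B0] [Nontrivial B0]
    (hK : InertFixed (padicPlace p) K)
    -- the model-level inputs
    {g : ℕ} (Dc : CechData (Wb p K) B0 B1 B01 g)
    (hρ0 : ∀ x, Dc.ρ0 x = algebraMap B0 B01 x) (hρ1 : ∀ x, Dc.ρ1 x = algebraMap B1 B01 x)
    (hfp : c0.FiniteProjOverLine)
    -- the per-level nodal packages and the compatibility of their `P00`
    (D : ∀ E : NLevel p K, LevelData c0 E)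
    (hPP : Compatible c0 (fun E => (D E).P00))
    {M : ℕ} [NeZero M] (hpM : p ∣ M)
    -- (GENERIC FIBRE) the charts of `X_{ℚ̄_p}` are domains
    (hd0 : letI := algWKbar p K; IsDomain (Kbar p ⊗[Wb p K] B0))
    (hd1 : letI := algWKbar p K; IsDomain (Kbar p ⊗[Wb p K] B1))
    (hnt : letI := algWKbar p K; Nontrivial (Kbar p ⊗[Wb p K] B01))
    -- (J-ALL)
    (j : JZero M →+ Atop p K c0) (hj : Function.Injective j)
    (hjres : letI := actTop c0 hK
      ∀ (τ : ↥(Ip p)) (x : JZero M), j (localGaloisToGlobal p (τ : Gp p) • x) = τ • j x)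
    (hjPt : ∀ x, j x ∈ PtTop c0)
    -- (Φ'')
    (hphi : letI := actTop c0 hK
      ∀ y ∈ PtTop c0, (∀ τ : ↥(Ip p), τ • y = y) → y ∈ JextTop c0)
    -- (ADJ), for two classes of `O_{E0}`-points
    (E0 : NLevel p K) (r₁ r₂ : PicO c0 E0)
    (hr₁ : letI := algWO E0.lev; IsPtClass c0 ↥(intSubring p E0.E) r₁)
    (hr₂ : letI := algWO E0.lev; IsPtClass c0 ↥(intSubring p E0.E) r₂)
    (hadj : ∀ z ∈ JextTop c0, ∃ m₀ m₁ : ℤ,
      z + m₀ • (Additive.ofMul (bcO c0 E0 r₁) : Atop p K c0) +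
        m₁ • (Additive.ofMul (bcO c0 E0 r₂) : Atop p K c0) ∈
          J0top c0 (fun E => (D E).P00) hPP)
    -- (c)
    (n₀ : ℕ) (hn₀ : 0 < n₀)
    (hc : n₀ • ((Additive.ofMul (bcO c0 E0 r₁) : Atop p K c0) - Additive.ofMul (bcO c0 E0 r₂)) ∈
      J0top c0 (fun E => (D E).P00) hPP)
    -- the auxiliary prime power
    (r : ℕ) (hr : 1 < r) (hrp : Nat.Coprime r p)
    -- (DIV)
    (hJdiv : ∀ x : JZero M, ∃ y : JZero M, r • y = x)
    -- (TORS-CMP)
    (hcmp : ∀ (k : ℕ) (a : Atop p K c0), r ^ k • a = 0 → ∃ t : JZero M, j t = a)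
    -- (MW) at the prime level `p`
    (hS17 : AddGroup.FG ↥(FixedPoints.addSubgroup Γℚ (JZero p))) :
    ∃ Ap : ValuationSubring (AlgebraicClosure ℚ), Ap.LiesOverPrime p ∧ ∃ M₁ : ℕ, 0 < M₁ ∧
      ∀ k : ℕ, ∀ x ∈ FixedPoints.addSubgroup Γℚ (JZero p),
        ∃ z' : JZero p, r ^ k • z' = M₁ • x ∧ ∀ s ∈ Ap.inertiaSubgroupIn ℚ, s • z' = z' := by
  obtain ⟨hJP, htors, hdiv, hinj, hext⟩ := levelHyps c0 Dc hρ0 hρ1 hfp D hrp
  have hfpl : letI := algWKbar p K; (c0.baseChange (Kbar p)).FiniteProjOverLine := by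
    letI := algWKbar p K
    exact hfp.baseChange (Kbar p)
  exact Fermat.Agent.MAZ.K3Asm7.leafK3_of_local_pt c0 hK (fun E => (D E).P00) hPP hJP hpM
    hd0 hd1 hnt hfpl j hj hjres hjPt hphi E0 r₁ r₂ hr₁ hr₂ hadj n₀ hn₀ hc htors r hr hdiv hinj hext
    hJdiv hcmp hS17

end Fermat.Agent.MAZ.K3Levels26
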