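/-
Programme MAZ (S15), brick K3-LEVELS (helper26): **(MD) — THE MULTIDEGREES ARE COMPATIBLE WITH THE
TRANSITION MAPS `Pic X_{O_E} → Pic X_{O_E'}`** for per-level packages coming from number-field-level
data (`K3Levels77.LevelData.ofNumField`).

`hmdmap` of helper7's `K3Asm7.leafK3_of_levelData_tw` (`MAZ/K3Asm7/Levels.lean`):
  `mdFam c0 D E' (bcOO c0 h x) i = mdFam c0 D E x i`,
for `D E := LevelData.ofNumField c0 E (hπL E) (hgL E) (κ E) (XL E) …`, from the comparison data
`Bal60.CompBC (XL E i) (XL E' i)` between the components at the NUMBER FIELD levels `O_L → O_L'`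
(helper60's `Bal60.compBC_numField` at the hub), through helper53's `NodalBC53.Tower.Mdeg_map_square`.

* `Mdeg_bcOO_ofNumField` : two levels `E ≤ E'`;
* `hmdmap_ofNumField`    : the family form, `= hmdmap` verbatim for `D := fun E => ofNumField …`.
-/
import Mathlib
import Fermat.Agent.MAZ.K3Levels77.Level
import Fermat.Agent.MAZ.K3Asm7.Levels
import Fermat.Agent.T1B.NodalBC53.Tower
import Fermat.Agent.T1B.P00Hub75.Family

set_option autoImplicit false
set_option linter.unusedSectionVars false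
set_option linter.unusedVariables false
set_option linter.style.haveILetI false
set_option synthInstance.maxHeartbeats 400000
set_option maxHeartbeats 4000000

open TensorProduct
open Fermat.Agent.TW.B5.Iface Fermat.Agent.RED.Interface4 Fermat.Agent.T1.HubInst98
open Fermat.Agent.T1.IntSub47 Fermat.Agent.Jac Fermat.Agent.T1.RedIface75
open Fermat.Agent.T1B.Local66.LocalBase Fermat.Agent.T1B.Local66.Union
open Fermat.Agent.T1B.RedN3 Fermat.Agent.T1B.Bal60
open Fermat.Agent.T1B.NodalBC53.Fibre Fermat.Agent.T1B.NodalBC53.Transfer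
open Fermat.Agent.T1B.NodalBC53.Level Fermat.Agent.T1B.NodalBC53.Bal
open Fermat.Agent.T1B.NodalBC53.Tower
open Fermat.Agent.T1B.P00Hub75 (tower_W_OL_OL')
open Fermat.Agent.RED.PUR.GaussGen8 (IsUnif)
open Fermat.Agent.MAZ.K3Levels77 (LevelData denseIn_level)
open Fermat.Agent.MAZ.K3Asm7 (mdFam)
open Fermat.Agent.Jac.BaseChange75
open scoped Fermat.Agent.Jac.BaseChange75

noncomputable section

namespace Fermat.Agent.MAZ.K3Levels26

variable {p : ℕ} [Fact p.Prime] {K : IntermediateField ℚ Qbar}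
  {B0 B1 B01 : Type} [CommRing B0] [CommRing B1] [CommRing B01]
  [Algebra (Wb p K) B0] [Algebra (Wb p K) B1] [Algebra (Wb p K) B01] [Algebra B0 B01]
  [Algebra B1 B01] [IsScalarTower (Wb p K) B0 B01] [IsScalarTower (Wb p K) B1 B01]
  [Module.Flat (Wb p K) B0] [Module.Flat (Wb p K) B1] [Module.Flat (Wb p K) B01]
  (c0 : TwoChart (Wb p K) B0 B1 B01)

/-- **(MD) between two levels** `E ≤ E'`: the multidegree of `bcOO x` over `O_E'` is the multidegree of
`x` over `O_E`, for the packages `LevelData.ofNumField`, given the comparison data of the components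
at the number-field levels. -/
theorem Mdeg_bcOO_ofNumField {E E' : NLevel p K} (hE : E ≤ E')
    {πL : Wb p E.L} {πL' : Wb p E'.L}
    (hπL : IsUnif (AK (padicPlace p) E.L) πL) (hπL' : IsUnif (AK (padicPlace p) E'.L) πL')
    (hgL : letI := algAK (padicPlace p) E.leL
      NodalGood (c0.baseChange (Wb p E.L)) πL (Fin 2))
    (hgL' : letI := algAK (padicPlace p) E'.leL
      NodalGood (c0.baseChange (Wb p E'.L)) πL' (Fin 2))
    (κ κ' : Type) [Field κ] [Finite κ] [Field κ'] [Finite κ'] [Algebra κ κ']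
    (XL : letI := algAK (padicPlace p) E.leL
      ∀ i, Comp (c0.baseChange (Wb p E.L)) (hgL.P0 i) (hgL.P1 i) κ)
    (XL' : letI := algAK (padicPlace p) E'.leL
      ∀ i, Comp (c0.baseChange (Wb p E'.L)) (hgL'.P0 i) (hgL'.P1 i) κ')
    (connL : letI := algAK (padicPlace p) E.leL
      Connected hgL)
    (connL' : letI := algAK (padicPlace p) E'.leL
      Connected hgL')
    (ne0L : letI := algAK (padicPlace p) E.leL
      ¬ hgL.P0 1 ≤ hgL.P0 0)
    (ne1L : letI := algAK (padicPlace p) E.leL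
      ¬ hgL.P1 1 ≤ hgL.P1 0)
    (ne0L' : letI := algAK (padicPlace p) E'.leL
      ¬ hgL'.P0 1 ≤ hgL'.P0 0)
    (ne1L' : letI := algAK (padicPlace p) E'.leL
      ¬ hgL'.P1 1 ≤ hgL'.P1 0)
    (bc : letI := algAK (padicPlace p) E.leL
      letI := algAK (padicPlace p) E'.leL
      letI := algAK (padicPlace p) (NLevel.le_def.1 hE)
      haveI := tower_W_OL_OL' hE
      ∀ i, CompBC (XL i) (XL' i))
    (x : PicO c0 E) (i : Fin 2) :
    letI := algWO E.lev
    letI := algWO E'.lev
    Mdeg (LevelData.ofNumField c0 E' hπL' hgL' κ' XL' connL' ne0L' ne1L').hg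
        (LevelData.ofNumField c0 E' hπL' hgL' κ' XL' connL' ne0L' ne1L').X (bcOO c0 hE x) i =
      Mdeg (LevelData.ofNumField c0 E hπL hgL κ XL connL ne0L ne1L).hg
        (LevelData.ofNumField c0 E hπL hgL κ XL connL ne0L ne1L).X x i := by
  letI := algAK (padicPlace p) E.leL
  letI := algAK (padicPlace p) E'.leL
  letI := algAK (padicPlace p) (NLevel.le_def.1 hE)
  haveI := tower_W_OL_OL' hE
  letI := algWO E.levL
  letI := algWO E'.levL
  letI := algWO E.lev
  letI := algWO E'.lev
  haveI := tower_W_OL_OE E.leL E.levL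
  haveI := tower_W_OL_OE E'.leL E'.levL
  letI := algOO (p := p) (NLevel.E_le hE)
  haveI := tower_W_O_O E.lev (NLevel.E_le hE)
  have hsq : ∀ x : Wb p E.L,
      algebraMap ↥(intSubring p E.E) ↥(intSubring p E'.E)
          (algebraMap (Wb p E.L) ↥(intSubring p E.E) x) =
        algebraMap (Wb p E'.L) ↥(intSubring p E'.E)
          (algebraMap (Wb p E.L) (Wb p E'.L) x) := fun x => Subtype.ext rfl
  exact Mdeg_map_square c0 hsq (sameFibre_level E.levL (denseIn_level E) hπL.ne_zero)
    (sameFibre_level E'.levL (denseIn_level E') hπL'.ne_zero)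
    (regular_level E.levL hπL.ne_zero) (regular_level E'.levL hπL'.ne_zero) hgL hgL' XL XL' id bc
    x i

/-- **(MD), family form** = the hypothesis `hmdmap` of `K3Asm7.leafK3_of_levelData_tw`, verbatim, for the
family `D E := LevelData.ofNumField c0 E (hπL E) (hgL E) (κ E) (XL E) (connL E) (ne0L E) (ne1L E)`. -/
theorem hmdmap_ofNumField
    (πL : ∀ E : NLevel p K, Wb p E.L)
    (hπL : ∀ E : NLevel p K, IsUnif (AK (padicPlace p) E.L) (πL E))
    (hgL : ∀ E : NLevel p K, letI := algAK (padicPlace p) E.leL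
      NodalGood (c0.baseChange (Wb p E.L)) (πL E) (Fin 2))
    (κ : NLevel p K → Type) [∀ E, Field (κ E)] [∀ E, Finite (κ E)]
    (algκ : ∀ E E' : NLevel p K, E ≤ E' → Algebra (κ E) (κ E'))
    (XL : ∀ E : NLevel p K, letI := algAK (padicPlace p) E.leL
      ∀ i, Comp (c0.baseChange (Wb p E.L)) ((hgL E).P0 i) ((hgL E).P1 i) (κ E))
    (connL : ∀ E : NLevel p K, letI := algAK (padicPlace p) E.leL
      Connected (hgL E))
    (ne0L : ∀ E : NLevel p K, letI := algAK (padicPlace p) E.leL
      ¬ (hgL E).P0 1 ≤ (hgL E).P0 0)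
    (ne1L : ∀ E : NLevel p K, letI := algAK (padicPlace p) E.leL
      ¬ (hgL E).P1 1 ≤ (hgL E).P1 0)
    (bc : ∀ (E E' : NLevel p K) (hE : E ≤ E'),
      letI := algAK (padicPlace p) E.leL
      letI := algAK (padicPlace p) E'.leL
      letI := algAK (padicPlace p) (NLevel.le_def.1 hE)
      haveI := tower_W_OL_OL' hE
      letI := algκ E E' hE
      ∀ i, CompBC (XL E i) (XL E' i)) :
    ∀ (E E' : NLevel p K) (h : E ≤ E') (x : PicO c0 E) (i : Fin 2),
      mdFam c0 (fun E => LevelData.ofNumField c0 E (hπL E) (hgL E) (κ E) (XL E) (connL E) (ne0L E)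
          (ne1L E)) E' (bcOO c0 h x) i =
        mdFam c0 (fun E => LevelData.ofNumField c0 E (hπL E) (hgL E) (κ E) (XL E) (connL E) (ne0L E)
          (ne1L E)) E x i := by
  intro E E' h x i
  letI := algκ E E' h
  exact Mdeg_bcOO_ofNumField c0 h (hπL E) (hπL E') (hgL E) (hgL E') (κ E) (κ E') (XL E) (XL E')
    (connL E) (connL E') (ne0L E) (ne1L E) (ne0L E') (ne1L E') (bc E E' h) x i

end Fermat.Agent.MAZ.K3Levels26
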